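import Mathlib
import Fermat.Prelude.Def_ModularCurve_LaurentCoeff

/-!
# `O((q))` is integrally closed in `Frac O((q)) ⊆ E((q))` for a complete DVR `O`

`O` a complete discrete valuation ring, `E` its fraction field.  Main result
`mem_range_of_isIntegralElem`: if `f ∈ E((q))` is integral over `O((q))` and `f * b = a` with
`a, b ∈ O((q))`, `b ≠ 0`, then `f ∈ O((q))`.

(The hypothesis `f ∈ Frac O((q))` cannot be dropped: `√(1+q) ∈ ℚ₂((q))` is integral over
`ℤ₂((q))` but has unbounded denominators.)

Proof: every nonzero `b ∈ O((q))` is a unit times a power of the uniformiser times a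
distinguished polynomial (Weierstrass preparation, Mathlib), distinguished polynomials factor into
irreducible distinguished polynomials in `O[X]`, and both the uniformiser and the irreducible
distinguished polynomials generate radical ideals of `O((q))` (Weierstrass division + uniqueness).
Then peel off the factors of `b` one at a time.

Mathlib + Prelude `coeffMap` only.
-/

set_option autoImplicit false
set_option linter.unusedSectionVars false

noncomputable section

namespace Fermat.Agent.S37.H972

open ModularCurve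

/-! ## Abstract peeling -/

section Peel

variable {R S : Type*} [CommRing R] [CommRing S] [IsDomain S] (ι : R →+* S)

/-- `c` is a *good denominator*: integral elements of `S` with denominator `c` lie in `R`. -/
def GoodDenom (c : R) : Prop :=
  ∀ (f : S) (a : R), ι.IsIntegralElem f → f * ι c = ι a → ∃ y : R, f = ι y

theorem goodDenom_one : GoodDenom ι (1 : R) := fun f a _ h =>
  ⟨a, by rw [← h, map_one, mul_one]⟩

variable {ι}

theorem GoodDenom.isUnit_mul {u c : R} (hu : IsUnit u) (hc : GoodDenom ι c) :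
    GoodDenom ι (u * c) := by
  intro f a hf h
  obtain ⟨u, rfl⟩ := hu
  refine hc f (↑u⁻¹ * a) hf ?_
  have : ι ↑u⁻¹ * ι ↑u = 1 := by rw [← map_mul, Units.inv_mul, map_one]
  calc f * ι c = (ι ↑u⁻¹ * ι ↑u) * (f * ι c) := by rw [this, one_mul]
    _ = ι ↑u⁻¹ * (f * (ι ↑u * ι c)) := by ring
    _ = ι (↑u⁻¹ * a) := by rw [← map_mul ι (↑u) c, h, map_mul]

theorem GoodDenom.radical_mul (hι : Function.Injective ι) {π c : R} (hπ : IsRadical π)
    (hπ0 : π ≠ 0) (hc : GoodDenom ι c) : GoodDenom ι (π * c) := by
  intro f a hf h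
  -- `f' = f * ι c` is integral with denominator `π`
  have hf' : ι.IsIntegralElem (f * ι c) := hf.mul ι ι.isIntegralElem_map
  obtain ⟨p, hp, hroot⟩ := hf'
  have h' : ι π * (f * ι c) = ι a := by rw [← h, map_mul]; ring
  have hdvd : π ∣ a ^ p.natDegree :=
    Polynomial.dvd_pow_natDegree_of_eval₂_eq_zero hι hp π a (f * ι c) hroot h'
  obtain ⟨a', rfl⟩ := hπ _ _ hdvd
  refine hc f a' hf ?_
  have hπS : ι π ≠ 0 := fun h0 => hπ0 (hι (h0.trans (map_zero ι).symm))
  apply mul_left_cancel₀ hπS
  rw [h', map_mul]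

theorem GoodDenom.radical_pow_mul (hι : Function.Injective ι) {π c : R} (hπ : IsRadical π)
    (hπ0 : π ≠ 0) (hc : GoodDenom ι c) (m : ℕ) : GoodDenom ι (π ^ m * c) := by
  induction m with
  | zero => simpa using hc
  | succ m ih =>
    rw [pow_succ', mul_assoc]
    exact ih.radical_mul hι hπ hπ0

end Peel

/-! ## The uniformiser is a radical element of `O((q))` -/

section Unif

variable {O : Type*} [CommRing O] [IsDomain O] [IsDiscreteValuationRing O]

theorem residue_eq_zero_iff_dvd' {lam : O} (hlam : Irreducible lam) (x : O) :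
    IsLocalRing.residue O x = 0 ↔ ∃ y : O, x = lam * y := by
  rw [IsLocalRing.residue_eq_zero_iff, hlam.maximalIdeal_eq, Ideal.mem_span_singleton]
  rfl

/-- Division by `lam` on `O` (junk value `0` on non-multiples). -/
def divUnif (lam : O) : ZeroHom O O where
  toFun x := by
    classical
    exact if h : lam ≠ 0 ∧ ∃ y : O, x = lam * y then h.2.choose else 0
  map_zero' := by
    classical
    by_cases h : lam ≠ 0 ∧ ∃ y : O, (0 : O) = lam * y
    · simp only [dif_pos h]
      have := h.2.choose_spec
      rcases mul_eq_zero.mp this.symm with h' | h'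
      · exact absurd h' h.1
      · exact h'
    · simp only [dif_neg h]

theorem unif_mul_divUnif {lam : O} (hlam : Irreducible lam) {x : O}
    (hx : IsLocalRing.residue O x = 0) : lam * divUnif lam x = x := by
  classical
  have h1 : lam ≠ 0 ∧ ∃ y : O, x = lam * y :=
    ⟨hlam.ne_zero, (residue_eq_zero_iff_dvd' hlam x).mp hx⟩
  show lam * (if h : lam ≠ 0 ∧ ∃ y : O, x = lam * y then h.2.choose else 0) = x
  rw [dif_pos h1]
  exact h1.2.choose_spec.symm

theorem red_eq_zero_iff_dvd {lam : O} (hlam : Irreducible lam) (a : LaurentSeries O) :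
    coeffMap (IsLocalRing.residue O) a = 0 ↔ (HahnSeries.C lam : LaurentSeries O) ∣ a := by
  constructor
  · intro h0
    refine ⟨a.map (divUnif lam), ?_⟩
    ext n
    rw [HahnSeries.C_mul_eq_smul, HahnSeries.coeff_smul, HahnSeries.map_coeff, smul_eq_mul,
      unif_mul_divUnif hlam]
    have := congrArg (fun x => x.coeff n) h0
    simpa using this
  · rintro ⟨a', rfl⟩
    ext n
    rw [HahnSeries.C_mul_eq_smul, coeffMap_coeff, HahnSeries.coeff_smul, smul_eq_mul, map_mul,
      (residue_eq_zero_iff_dvd' hlam lam).mpr ⟨1, (mul_one lam).symm⟩, zero_mul,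
      HahnSeries.coeff_zero]

theorem isRadical_C_unif {lam : O} (hlam : Irreducible lam) :
    IsRadical (HahnSeries.C lam : LaurentSeries O) := by
  intro n a h
  rw [← red_eq_zero_iff_dvd hlam] at h ⊢
  rw [map_pow] at h
  exact eq_zero_of_pow_eq_zero h

theorem C_unif_ne_zero {lam : O} (hlam : Irreducible lam) :
    (HahnSeries.C lam : LaurentSeries O) ≠ 0 := by
  intro h0
  exact hlam.ne_zero (HahnSeries.C_injective (by rw [h0, map_zero]))

/-- Every nonzero Laurent series is a power of the uniformiser times a primitive series. -/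
theorem exists_primitive' {lam : O} (hlam : Irreducible lam) (b : LaurentSeries O) (hb : b ≠ 0) :
    ∃ (i : ℕ) (b' : LaurentSeries O), b = HahnSeries.C lam ^ i * b' ∧
      coeffMap (IsLocalRing.residue O) b' ≠ 0 := by
  obtain ⟨n0, hn0⟩ : ∃ n0, b.coeff n0 ≠ 0 := by
    by_contra h0
    exact hb (HahnSeries.ext (funext fun n => not_not.mp (not_exists.mp h0 n)))
  obtain ⟨m, u, hu⟩ := IsDiscreteValuationRing.eq_unit_mul_pow_irreducible hn0 hlam
  clear hb
  induction m generalizing b with
  | zero =>
    refine ⟨0, b, by simp, ?_⟩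
    intro h0
    have := congrArg (fun x => x.coeff n0) h0
    simp only [coeffMap_coeff, HahnSeries.coeff_zero] at this
    rw [hu, pow_zero, mul_one] at this
    exact (IsLocalRing.residue_ne_zero_iff_isUnit _).mpr u.isUnit this
  | succ m ih =>
    by_cases hb : coeffMap (IsLocalRing.residue O) b = 0
    · obtain ⟨b1, rfl⟩ := (red_eq_zero_iff_dvd hlam b).mp hb
      rw [HahnSeries.C_mul_eq_smul, HahnSeries.coeff_smul, smul_eq_mul, pow_succ', ← mul_assoc,
        mul_comm (u : O) lam, mul_assoc] at hu
      have h1 : b1.coeff n0 = ↑u * lam ^ m := mul_left_cancel₀ hlam.ne_zero hu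
      have h2 : b1.coeff n0 ≠ 0 := by
        rw [h1]; exact mul_ne_zero u.ne_zero (pow_ne_zero m hlam.ne_zero)
      obtain ⟨i, b', hb', hred⟩ := ih b1 h2 h1
      refine ⟨i + 1, b', ?_, hred⟩
      rw [hb', pow_succ']
      ring
    · exact ⟨0, b, by simp, hb⟩

end Unif

/-! ## Power series inside Laurent series -/

section PL

variable {O : Type*} [CommRing O]

/-- `O[X] → O((q))`. -/
def toL : Polynomial O →+* LaurentSeries O :=
  (HahnSeries.ofPowerSeries ℤ O).comp Polynomial.coeToPowerSeries.ringHom

theorem toL_apply (P : Polynomial O) :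
    toL P = HahnSeries.ofPowerSeries ℤ O (P : PowerSeries O) := rfl

theorem toL_injective : Function.Injective (toL (O := O)) :=
  HahnSeries.ofPowerSeries_injective.comp (Polynomial.coe_injective O)

theorem mem_range_PL_iff (x : LaurentSeries O) :
    (∃ g : PowerSeries O, x = HahnSeries.ofPowerSeries ℤ O g) ↔ ∀ i : ℤ, i < 0 → x.coeff i = 0 := by
  constructor
  · rintro ⟨g, rfl⟩ i hi
    rw [PowerSeries.coeff_coe, if_pos hi]
  · intro h
    refine ⟨PowerSeries.mk fun n => x.coeff n, ?_⟩
    ext i
    rw [PowerSeries.coeff_coe]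
    split_ifs with hi
    · exact h i hi
    · rw [PowerSeries.coeff_mk]
      congr 1
      exact (Int.natAbs_of_nonneg (not_lt.mp hi)).symm

theorem isUnit_single_one (k : ℤ) : IsUnit (HahnSeries.single k (1 : O) : LaurentSeries O) := by
  refine IsUnit.of_mul_eq_one (HahnSeries.single (-k) (1 : O)) ?_
  rw [HahnSeries.single_mul_single, add_neg_cancel, mul_one, HahnSeries.single_zero_one]

/-- Every Laurent series is a power of `q` (a unit) times a power series. -/
theorem exists_single_mul_eq_PL (x : LaurentSeries O) :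
    ∃ (k : ℕ) (g : PowerSeries O),
      HahnSeries.single (k : ℤ) (1 : O) * x = HahnSeries.ofPowerSeries ℤ O g := by
  refine ⟨(-x.order).toNat, ?_⟩
  rw [mem_range_PL_iff]
  intro i hi
  have h1 : i = (i - ((-x.order).toNat : ℤ)) + ((-x.order).toNat : ℤ) := by ring
  rw [h1, HahnSeries.coeff_single_mul_add, one_mul]
  apply HahnSeries.coeff_eq_zero_of_lt_order
  have h2 : -x.order ≤ ((-x.order).toNat : ℤ) := Int.self_le_toNat _
  omega

variable [IsDomain O]

/-- If `P(0) ≠ 0` and `P * w` is a power series, then `w` is a power series. -/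
theorem exists_eq_PL_of_mul_eq {P : Polynomial O} (hP : P.coeff 0 ≠ 0) {w : LaurentSeries O}
    {r : PowerSeries O} (h : toL P * w = HahnSeries.ofPowerSeries ℤ O r) :
    ∃ w₀ : PowerSeries O, w = HahnSeries.ofPowerSeries ℤ O w₀ := by
  rw [mem_range_PL_iff]
  by_cases hw : w = 0
  · intro i _; rw [hw, HahnSeries.coeff_zero]
  have hP0 : (toL P).coeff 0 ≠ 0 := by
    have : (toL P).coeff ((0 : ℕ) : ℤ) = P.coeff 0 := by
      rw [toL_apply, HahnSeries.ofPowerSeries_apply_coeff, Polynomial.coeff_coe]
    rwa [Nat.cast_zero] at this ▸ hP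
  have hPne : toL P ≠ 0 := HahnSeries.ne_zero_of_coeff_ne_zero hP0
  have hordP : (toL P).order = 0 := by
    apply le_antisymm (HahnSeries.order_le_of_coeff_ne_zero hP0)
    by_contra hlt
    have hlt' : (toL P).order < 0 := not_le.mp hlt
    have h0 : (toL P).coeff (toL P).order = 0 := by
      rw [toL_apply, PowerSeries.coeff_coe, if_pos (by rwa [toL_apply] at hlt')]
    exact hPne (HahnSeries.coeff_order_eq_zero.mp h0)
  have hprod : toL P * w ≠ 0 := mul_ne_zero hPne hw
  have hord : (toL P * w).order = (toL P).order + w.order := HahnSeries.order_mul hPne hw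
  have hordr : 0 ≤ (toL P * w).order := by
    by_contra hlt
    have hlt' : (toL P * w).order < 0 := not_le.mp hlt
    have h0 : (toL P * w).coeff (toL P * w).order = 0 := by
      rw [h, PowerSeries.coeff_coe, if_pos (by rwa [h] at hlt')]
    exact hprod (HahnSeries.coeff_order_eq_zero.mp h0)
  rw [hord, hordP, zero_add] at hordr
  intro i hi
  exact HahnSeries.coeff_eq_zero_of_lt_order (lt_of_lt_of_le hi hordr)

end PL

/-! ## Distinguished polynomials -/

section Dist

variable {O : Type*} [CommRing O] [IsDomain O] [IsDiscreteValuationRing O]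

theorem isDistinguishedAt_of_mul_left {P₁ P₂ : Polynomial O} (h₁ : P₁.Monic)
    (h : (P₁ * P₂).IsDistinguishedAt (IsLocalRing.maximalIdeal O)) :
    P₁.IsDistinguishedAt (IsLocalRing.maximalIdeal O) := by
  have hmap := h.map_eq_X_pow
  rw [Polynomial.map_mul] at hmap
  have hdvd : P₁.map (Ideal.Quotient.mk (IsLocalRing.maximalIdeal O)) ∣
      Polynomial.X ^ (P₁ * P₂).natDegree := ⟨_, hmap.symm⟩
  obtain ⟨j, -, hj⟩ := (dvd_prime_pow Polynomial.prime_X _).mp hdvd
  have heq : P₁.map (Ideal.Quotient.mk (IsLocalRing.maximalIdeal O)) = Polynomial.X ^ j :=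
    Polynomial.eq_of_monic_of_associated (h₁.map _) (Polynomial.monic_X_pow j) hj
  have hdeg : P₁.natDegree = j := by
    rw [← h₁.natDegree_map (Ideal.Quotient.mk (IsLocalRing.maximalIdeal O)), heq,
      Polynomial.natDegree_X_pow]
  refine ⟨⟨fun {n} hn => ?_⟩, h₁⟩
  have hc := congrArg (fun p => p.coeff n) heq
  simp only [Polynomial.coeff_map, Polynomial.coeff_X_pow] at hc
  rw [if_neg (by omega)] at hc
  exact Ideal.Quotient.eq_zero_iff_mem.mp hc

theorem isDistinguishedAt_of_mul_right {P₁ P₂ : Polynomial O} (h₂ : P₂.Monic)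
    (h : (P₁ * P₂).IsDistinguishedAt (IsLocalRing.maximalIdeal O)) :
    P₂.IsDistinguishedAt (IsLocalRing.maximalIdeal O) :=
  isDistinguishedAt_of_mul_left h₂ (mul_comm P₁ P₂ ▸ h)

theorem order_map_coe_eq_natDegree {P : Polynomial O}
    (hd : P.IsDistinguishedAt (IsLocalRing.maximalIdeal O)) :
    ((PowerSeries.map (Ideal.Quotient.mk (IsLocalRing.maximalIdeal O))
      (P : PowerSeries O)).order).toNat = P.natDegree := by
  have h := hd.coe_natDegree_eq_order_map (P : PowerSeries O) 1
    (by
      rw [map_one]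
      exact (Ideal.ne_top_iff_one _).mp (IsLocalRing.maximalIdeal.isMaximal O).ne_top)
    (by rw [mul_one])
  rw [← h]
  rfl

variable [IsAdicComplete (IsLocalRing.maximalIdeal O) O]

/-- An irreducible distinguished polynomial generates a radical ideal of `O((q))`. -/
theorem isRadical_toL {P : Polynomial O} (hirr : Irreducible P)
    (hd : P.IsDistinguishedAt (IsLocalRing.maximalIdeal O)) : IsRadical (toL P) := by
  intro n a h
  by_cases hP0 : P.coeff 0 = 0
  · -- `P = X * unit`, a unit of `O((q))`
    obtain ⟨c, hc⟩ := Polynomial.X_dvd_iff.mpr hP0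
    have hcu : IsUnit c := (hirr.isUnit_or_isUnit hc).resolve_left Polynomial.not_isUnit_X
    have hu : IsUnit (toL P) := by
      rw [hc, map_mul]
      refine IsUnit.mul ?_ (hcu.map toL)
      have : toL (Polynomial.X : Polynomial O) = HahnSeries.single (1 : ℤ) (1 : O) := by
        rw [toL_apply, Polynomial.coe_X, HahnSeries.ofPowerSeries_X]
      rw [this]
      exact isUnit_single_one 1
    exact hu.dvd
  · obtain ⟨k, g, hkg⟩ := exists_single_mul_eq_PL a
    have hdvd1 : toL P ∣ HahnSeries.ofPowerSeries ℤ O (g ^ n) := by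
      rw [map_pow, ← hkg, mul_pow]
      exact Dvd.dvd.mul_left h _
    have hmapne : PowerSeries.map (IsLocalRing.residue O) (P : PowerSeries O) ≠ 0 := by
      intro h0
      have := congrArg (PowerSeries.coeff P.natDegree) h0
      rw [PowerSeries.coeff_map, Polynomial.coeff_coe, Polynomial.coeff_natDegree,
        hd.monic.leadingCoeff, map_one, map_zero] at this
      exact one_ne_zero this
    obtain ⟨qq, r, hdiv⟩ := PowerSeries.exists_isWeierstrassDivision g hmapne
    have hrdeg : r.degree < P.degree := by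
      have := hdiv.degree_lt
      rw [order_map_coe_eq_natDegree hd] at this
      rwa [Polynomial.degree_eq_natDegree hd.monic.ne_zero]
    have hgr : g = (P : PowerSeries O) * qq + (r : PowerSeries O) := hdiv.eq_mul_add
    -- `P ∣ r ^ n` in `O((q))`
    have hdvd2 : (P : PowerSeries O) ∣ g ^ n - (r : PowerSeries O) ^ n :=
      dvd_trans ⟨qq, by rw [hgr]; ring⟩ (sub_dvd_pow_sub_pow g (r : PowerSeries O) n)
    have hdvd3 : toL P ∣ toL (r ^ n) := by
      have h1 : toL P ∣ HahnSeries.ofPowerSeries ℤ O (g ^ n - (r : PowerSeries O) ^ n) := by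
        obtain ⟨c, hc⟩ := hdvd2
        exact ⟨HahnSeries.ofPowerSeries ℤ O c, by rw [hc, map_mul]; rfl⟩
      have h2 : toL (r ^ n) = HahnSeries.ofPowerSeries ℤ O (g ^ n) -
          HahnSeries.ofPowerSeries ℤ O (g ^ n - (r : PowerSeries O) ^ n) := by
        rw [toL_apply, Polynomial.coe_pow, ← map_sub]
        congr 1
        ring
      rw [h2]
      exact dvd_sub hdvd1 h1
    obtain ⟨w, hw⟩ := hdvd3
    -- polynomial division of `r ^ n` by `P`
    have hpoly : r ^ n %ₘ P + P * (r ^ n /ₘ P) = r ^ n := Polynomial.modByMonic_add_div _ P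
    have hw' : toL P * (w - toL (r ^ n /ₘ P)) =
        HahnSeries.ofPowerSeries ℤ O ((r ^ n %ₘ P : Polynomial O) : PowerSeries O) := by
      have hmod : r ^ n %ₘ P = r ^ n - P * (r ^ n /ₘ P) := eq_sub_of_add_eq hpoly
      rw [mul_sub, ← hw, ← map_mul, ← map_sub, ← toL_apply, ← hmod]
    obtain ⟨w₀, hw₀⟩ := exists_eq_PL_of_mul_eq hP0 hw'
    have hps : (P : PowerSeries O) * w₀ = ((r ^ n %ₘ P : Polynomial O) : PowerSeries O) := by
      apply HahnSeries.ofPowerSeries_injective (Γ := ℤ)
      rw [← hw', hw₀, map_mul]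
      rfl
    have hmod0 : r ^ n %ₘ P = 0 := by
      have H : (P : PowerSeries O).IsWeierstrassDivisorAt (IsLocalRing.maximalIdeal O) :=
        hd.isWeierstrassDivisorAt (IsLocalRing.maximalIdeal.isMaximal O).ne_top
      refine (H.eq_zero_of_mul_eq ?_ hps).2
      rw [order_map_coe_eq_natDegree hd, ← Polynomial.degree_eq_natDegree hd.monic.ne_zero]
      exact Polynomial.degree_modByMonic_lt _ hd.monic
    have hPr : P ∣ r := by
      have h1 : P ∣ r ^ n := (Polynomial.modByMonic_eq_zero_iff_dvd hd.monic).mp hmod0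
      exact (UniqueFactorizationMonoid.irreducible_iff_prime.mp hirr).dvd_of_dvd_pow h1
    have hr0 : r = 0 := by
      by_contra hne
      exact hd.monic.not_dvd_of_degree_lt hne hrdeg hPr
    rw [hr0, Polynomial.coe_zero, add_zero] at hgr
    -- conclude
    obtain ⟨u, hu⟩ := isUnit_single_one (O := O) (k : ℤ)
    refine ⟨↑u⁻¹ * HahnSeries.ofPowerSeries ℤ O qq, ?_⟩
    have h3 : (↑u : LaurentSeries O) * a = toL P * HahnSeries.ofPowerSeries ℤ O qq := by
      rw [hu, hkg, hgr, map_mul]
      rfl
    calc a = ↑u⁻¹ * (↑u * a) := by rw [← mul_assoc, Units.inv_mul, one_mul]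
      _ = toL P * (↑u⁻¹ * HahnSeries.ofPowerSeries ℤ O qq) := by rw [h3]; ring

end Dist

/-! ## Distinguished polynomials are good denominators -/

section Main

variable {O : Type*} [CommRing O] [IsDomain O] [IsDiscreteValuationRing O]
  [IsAdicComplete (IsLocalRing.maximalIdeal O) O]
  {S : Type*} [CommRing S] [IsDomain S] {ι : LaurentSeries O →+* S}

theorem goodDenom_toL (hι : Function.Injective ι) :
    ∀ (d : ℕ) (P : Polynomial O), P.IsDistinguishedAt (IsLocalRing.maximalIdeal O) →
      P.natDegree = d → GoodDenom ι (toL P) := by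
  intro d
  induction d using Nat.strong_induction_on with
  | _ d ih =>
    intro P hd hdeg
    by_cases hu : IsUnit P
    · have := (goodDenom_one ι).isUnit_mul (hu.map toL)
      rwa [mul_one] at this
    · obtain ⟨P₁, hirr, P₂, hP⟩ := WfDvdMonoid.exists_irreducible_factor hu hd.monic.ne_zero
      -- normalise the factors to be monic
      have hlc : P₁.leadingCoeff * P₂.leadingCoeff = 1 := by
        rw [← Polynomial.leadingCoeff_mul, ← hP, hd.monic.leadingCoeff]
      have hlc' : P₂.leadingCoeff * P₁.leadingCoeff = 1 := by rw [mul_comm, hlc]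
      set Q₁ : Polynomial O := Polynomial.C P₂.leadingCoeff * P₁ with hQ₁
      set Q₂ : Polynomial O := Polynomial.C P₁.leadingCoeff * P₂ with hQ₂
      have hPQ : P = Q₁ * Q₂ := by
        rw [hQ₁, hQ₂, hP]
        calc P₁ * P₂ = Polynomial.C (P₂.leadingCoeff * P₁.leadingCoeff) * (P₁ * P₂) := by
              rw [hlc', map_one, one_mul]
          _ = Polynomial.C P₂.leadingCoeff * P₁ * (Polynomial.C P₁.leadingCoeff * P₂) := by
              rw [map_mul]; ring
      have hQ₁m : Q₁.Monic := by
        rw [Polynomial.Monic, hQ₁, Polynomial.leadingCoeff_mul, Polynomial.leadingCoeff_C, hlc']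
      have hQ₂m : Q₂.Monic := by
        rw [Polynomial.Monic, hQ₂, Polynomial.leadingCoeff_mul, Polynomial.leadingCoeff_C, hlc]
      have hunitC : IsUnit (Polynomial.C P₂.leadingCoeff) :=
        Polynomial.isUnit_C.mpr (IsUnit.of_mul_eq_one _ hlc')
      have hQ₁irr : Irreducible Q₁ := by
        rw [hQ₁]
        exact (irreducible_isUnit_mul hunitC).mpr hirr
      have hQ₁d : Q₁.IsDistinguishedAt (IsLocalRing.maximalIdeal O) :=
        isDistinguishedAt_of_mul_left hQ₁m (hPQ ▸ hd)
      have hQ₂d : Q₂.IsDistinguishedAt (IsLocalRing.maximalIdeal O) :=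
        isDistinguishedAt_of_mul_right hQ₂m (hPQ ▸ hd)
      have hdegsum : P.natDegree = Q₁.natDegree + Q₂.natDegree := by
        rw [hPQ, hQ₁m.natDegree_mul hQ₂m]
      have hQ₁pos : 0 < Q₁.natDegree := by
        rcases Nat.eq_zero_or_pos Q₁.natDegree with h0 | h0
        · exfalso
          have : Q₁ = 1 := hQ₁m.natDegree_eq_zero.mp h0
          exact hQ₁irr.not_isUnit (this ▸ isUnit_one)
        · exact h0
      have hlt : Q₂.natDegree < d := by omega
      have hgood₂ : GoodDenom ι (toL Q₂) := ih _ hlt Q₂ hQ₂d rfl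
      have hne : toL Q₁ ≠ 0 := fun h0 =>
        hQ₁m.ne_zero (toL_injective (h0.trans (map_zero toL).symm))
      have := hgood₂.radical_mul hι (isRadical_toL hQ₁irr hQ₁d) hne
      rwa [← map_mul, ← hPQ] at this

theorem coeffMap_ofPowerSeries {A B : Type*} [CommRing A] [CommRing B] (φ : A →+* B)
    (g : PowerSeries A) :
    coeffMap φ (HahnSeries.ofPowerSeries ℤ A g) =
      HahnSeries.ofPowerSeries ℤ B (PowerSeries.map φ g) := by
  ext i
  rw [coeffMap_coeff, PowerSeries.coeff_coe, PowerSeries.coeff_coe]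
  split_ifs
  · exact map_zero φ
  · rw [PowerSeries.coeff_map]

/-- **Every nonzero element of `O((q))` is a good denominator.** -/
theorem goodDenom_of_ne_zero (hι : Function.Injective ι) {b : LaurentSeries O} (hb : b ≠ 0) :
    GoodDenom ι b := by
  obtain ⟨lam, hlam⟩ := IsDiscreteValuationRing.exists_irreducible O
  obtain ⟨m, b₀, hb₀, hred⟩ := exists_primitive' hlam b hb
  obtain ⟨k, g, hkg⟩ := exists_single_mul_eq_PL b₀
  have hg : PowerSeries.map (IsLocalRing.residue O) g ≠ 0 := by
    intro h0
    apply hred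
    have h1 : coeffMap (IsLocalRing.residue O) (HahnSeries.single (k : ℤ) (1 : O) * b₀) = 0 := by
      rw [hkg, coeffMap_ofPowerSeries, h0, map_zero]
    rw [map_mul] at h1
    have hu : IsUnit (coeffMap (IsLocalRing.residue O) (HahnSeries.single (k : ℤ) (1 : O))) :=
      (isUnit_single_one (O := O) (k : ℤ)).map _
    exact (hu.mul_right_eq_zero).mp h1
  obtain ⟨P, h', hfac⟩ := PowerSeries.exists_isWeierstrassFactorization hg
  obtain ⟨u, hu⟩ := isUnit_single_one (O := O) (k : ℤ)
  have hh' : IsUnit (HahnSeries.ofPowerSeries ℤ O h') := hfac.isUnit.map _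
  have hb₀' : b₀ = (↑u⁻¹ * HahnSeries.ofPowerSeries ℤ O h') * toL P := by
    have h2 : (↑u : LaurentSeries O) * b₀ = toL P * HahnSeries.ofPowerSeries ℤ O h' := by
      rw [hu, hkg, hfac.eq_mul, map_mul]
      rfl
    calc b₀ = ↑u⁻¹ * (↑u * b₀) := by rw [← mul_assoc, Units.inv_mul, one_mul]
      _ = (↑u⁻¹ * HahnSeries.ofPowerSeries ℤ O h') * toL P := by rw [h2]; ring
  have hU : IsUnit ((↑u⁻¹ : LaurentSeries O) * HahnSeries.ofPowerSeries ℤ O h') :=
    (Units.isUnit _).mul hh'
  have hgood : GoodDenom ι (toL P) := goodDenom_toL hι _ P hfac.isDistinguishedAt rfl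
  rw [hb₀, hb₀']
  exact (hgood.isUnit_mul hU).radical_pow_mul hι (isRadical_C_unif hlam) (C_unif_ne_zero hlam) m

/-- **`O((q))` is integrally closed in `Frac O((q)) ⊆ E((q))`**, `O` a complete discrete
valuation ring with fraction field `E`. -/
theorem mem_range_of_isIntegralElem {E : Type*} [Field E] [Algebra O E] [IsFractionRing O E]
    (f : LaurentSeries E) (a b : LaurentSeries O) (hb : b ≠ 0)
    (hfab : f * coeffMap (algebraMap O E) b = coeffMap (algebraMap O E) a)
    (hint : (coeffMap (algebraMap O E)).IsIntegralElem f) :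
    ∃ y : LaurentSeries O, f = coeffMap (algebraMap O E) y := by
  have hι : Function.Injective (coeffMap (algebraMap O E)) := by
    intro x y h
    ext n
    have := congrArg (fun z => z.coeff n) h
    simp only [coeffMap_coeff] at this
    exact IsFractionRing.injective O E this
  exact goodDenom_of_ne_zero hι hb f a hint hfab

end Main

end Fermat.Agent.S37.H972
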